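/-
S26lib / Hub / CaCl  (helper7)  --  Project K (S26), cube kernel

**Cartier divisors as coherent families of local equations in `K(X)ˣ`, and their PULL-BACK ALONG
ARBITRARY MORPHISMS of integral schemes** ("move by the local equation at the image of the generic
point, then pull back literally").

* `stalkUnits X x : Subgroup K(X)ˣ` : the units of `O_{X,x}` inside the function field;
* `CDiv X : Subgroup (X → K(X)ˣ)` : coherent families `t` (`∀ x ∃ U ∋ x ∀ y ∈ U, t y / t x` is a
  unit at `y`), a commutative group under pointwise multiplication;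
* `CDiv.units` (trivial divisors), `CDiv.prin h` (constant family = `div h`),
  `CDiv.principal = units ⊔ range prin`, `CDiv.LinEquiv`;
* `CDiv.pull ψ : CDiv X →* CDiv Y` for ANY `ψ : Y ⟶ X`:
  `(pull ψ D) y = ψ^* (D x / D x₀)`, `x = ψ y`, `x₀ = ψ η_Y` (a unit of `O_{X,x₀}` by coherence);
  it kills `prin`, maps `units` into `principal`, hence descends to classes; it is strictly
  functorial (`pull_comp`), trivial for maps which are constant on points (`pull_of_const`), and
  linearly equivalent to the literal pull-back whenever the latter is defined (`pull_ofLocFam`).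
-/
import Fermat.Agent.S26lib.Quad.LocEq

set_option autoImplicit false
set_option linter.unusedSectionVars false

noncomputable section

namespace Fermat.Agent.S26lib.Hub

open AlgebraicGeometry CategoryTheory TopologicalSpace Fermat.Agent.S26lib.Quad

universe u

/-! ### units of the local rings inside the function field -/

section Units

variable (X : Scheme.{u}) [IsIntegral X]

/-- the ring hom `toFF` on units -/
def toFFU (x : X) : (X.presheaf.stalk x)ˣ →* (X.functionField)ˣ :=
  Units.map (toFF X x).toMonoidHom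

theorem toFFU_injective (x : X) : Function.Injective (toFFU X x) :=
  Units.map_injective (toFF_injective X x)

@[simp] theorem coe_toFFU (x : X) (u : (X.presheaf.stalk x)ˣ) :
    ((toFFU X x u : (X.functionField)ˣ) : X.functionField) = toFF X x u := rfl

/-- the units of `O_{X,x}` inside `K(X)ˣ` -/
def stalkUnits (x : X) : Subgroup (X.functionField)ˣ := (toFFU X x).range

theorem mem_stalkUnits_iff {x : X} {q : (X.functionField)ˣ} :
    q ∈ stalkUnits X x ↔ ∃ u : (X.presheaf.stalk x)ˣ, toFFU X x u = q := Iff.rfl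

theorem toFFU_mem (x : X) (u : (X.presheaf.stalk x)ˣ) : toFFU X x u ∈ stalkUnits X x := ⟨u, rfl⟩

/-- generisation of units -/
def specU {x x' : X} (h : x' ⤳ x) : (X.presheaf.stalk x)ˣ →* (X.presheaf.stalk x')ˣ :=
  Units.map (X.presheaf.stalkSpecializes h).hom.toMonoidHom

theorem toFFU_specU {x x' : X} (h : x' ⤳ x) (u : (X.presheaf.stalk x)ˣ) :
    toFFU X x' (specU X h u) = toFFU X x u :=
  Units.ext (toFF_spec X h (u : X.presheaf.stalk x))

/-- a unit at `x` is a unit at every generisation of `x` -/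
theorem stalkUnits_mono {x x' : X} (h : x' ⤳ x) : stalkUnits X x ≤ stalkUnits X x' := by
  rintro q ⟨u, rfl⟩
  exact ⟨specU X h u, toFFU_specU X h u⟩

/-- the unit of the local ring representing an element of `stalkUnits` -/
def liftUnit (x : X) : stalkUnits X x ≃* (X.presheaf.stalk x)ˣ :=
  (MonoidHom.ofInjective (toFFU_injective X x)).symm

theorem toFFU_liftUnit (x : X) (q : stalkUnits X x) : toFFU X x (liftUnit X x q) = q := by
  have := (MonoidHom.ofInjective (toFFU_injective X x)).apply_symm_apply q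
  exact congrArg Subtype.val this

theorem liftUnit_toFFU (x : X) (u : (X.presheaf.stalk x)ˣ) :
    liftUnit X x ⟨toFFU X x u, toFFU_mem X x u⟩ = u :=
  toFFU_injective X x (toFFU_liftUnit X x _)

end Units

/-! ### Cartier divisors -/

section CDiv

variable (X : Scheme.{u}) [IsIntegral X]

/-- the subgroup of the coherent families of local equations in `K(X)ˣ` -/
def cdivSubgroup : Subgroup (X → (X.functionField)ˣ) where
  carrier := {t | ∀ x : X, ∃ U : X.Opens, x ∈ U ∧ ∀ y ∈ U, t y / t x ∈ stalkUnits X y}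
  one_mem' := fun x => ⟨⊤, trivial, fun y _ => by
    simp only [Pi.one_apply, div_one]
    exact one_mem _⟩
  mul_mem' := by
    intro a b ha hb x
    obtain ⟨U, hxU, hU⟩ := ha x
    obtain ⟨V, hxV, hV⟩ := hb x
    refine ⟨U ⊓ V, ⟨hxU, hxV⟩, fun y hy => ?_⟩
    have e : (a * b) y / (a * b) x = (a y / a x) * (b y / b x) := by
      simp only [Pi.mul_apply]
      exact mul_div_mul_comm _ _ _ _
    rw [e]
    exact mul_mem (hU y hy.1) (hV y hy.2)
  inv_mem' := by
    intro a ha x
    obtain ⟨U, hxU, hU⟩ := ha x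
    refine ⟨U, hxU, fun y hy => ?_⟩
    have e : a⁻¹ y / a⁻¹ x = (a y / a x)⁻¹ := by
      simp only [Pi.inv_apply]
      rw [inv_div_inv, inv_div]
    rw [e]
    exact inv_mem (hU y hy)

/-- **Cartier divisors**: coherent families of local equations in `K(X)ˣ` -/
abbrev CDiv : Type u := ↥(cdivSubgroup X)

variable {X}

namespace CDiv

/-- the local equation at `x` -/
abbrev t (D : CDiv X) (x : X) : (X.functionField)ˣ := D.1 x

theorem coherent (D : CDiv X) (x : X) :
    ∃ U : X.Opens, x ∈ U ∧ ∀ y ∈ U, D.t y / D.t x ∈ stalkUnits X y := D.2 x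

@[simp] theorem one_t (x : X) : (1 : CDiv X).t x = 1 := rfl

@[simp] theorem mul_t (D E : CDiv X) (x : X) : (D * E).t x = D.t x * E.t x := rfl

@[simp] theorem inv_t (D : CDiv X) (x : X) : (D⁻¹).t x = (D.t x)⁻¹ := rfl

@[simp] theorem div_t (D E : CDiv X) (x : X) : (D / E).t x = D.t x / E.t x := rfl

@[ext] theorem ext {D E : CDiv X} (h : ∀ x, D.t x = E.t x) : D = E :=
  Subtype.ext (funext h)

/-- **coherence along a specialisation**: the local equation at `x` is also a local equation at
every generisation `x₀` of `x` -/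
theorem div_mem_of_specializes (D : CDiv X) {x x₀ : X} (h : x₀ ⤳ x) :
    D.t x / D.t x₀ ∈ stalkUnits X x₀ := by
  obtain ⟨U, hxU, hU⟩ := D.coherent x
  have h0 : x₀ ∈ U := h.mem_open U.2 hxU
  have := inv_mem (hU x₀ h0)
  rwa [inv_div] at this

/-- the trivial divisors: all local equations are units -/
def units (X : Scheme.{u}) [IsIntegral X] : Subgroup (CDiv X) where
  carrier := {D | ∀ x, D.t x ∈ stalkUnits X x}
  one_mem' := fun _ => one_mem _
  mul_mem' := fun ha hb x => mul_mem (ha x) (hb x)
  inv_mem' := fun ha x => inv_mem (ha x)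

theorem mem_units_iff {D : CDiv X} : D ∈ units X ↔ ∀ x, D.t x ∈ stalkUnits X x := Iff.rfl

/-- the divisor of a rational function: the constant family -/
def prin : (X.functionField)ˣ →* CDiv X where
  toFun h := ⟨fun _ => h, fun x => ⟨⊤, trivial, fun y _ => by
    rw [div_self']
    exact one_mem _⟩⟩
  map_one' := rfl
  map_mul' := fun _ _ => rfl

@[simp] theorem prin_t (h : (X.functionField)ˣ) (x : X) : (prin h : CDiv X).t x = h := rfl

/-- the principal divisors (up to units) -/
def principal (X : Scheme.{u}) [IsIntegral X] : Subgroup (CDiv X) :=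
  units X ⊔ (prin (X := X)).range

theorem mem_principal_iff {D : CDiv X} :
    D ∈ principal X ↔ ∃ h : (X.functionField)ˣ, D / prin h ∈ units X := by
  unfold principal
  rw [Subgroup.mem_sup]
  constructor
  · rintro ⟨E, hE, _, ⟨h, rfl⟩, rfl⟩
    exact ⟨h, by rwa [mul_div_cancel_right]⟩
  · rintro ⟨h, hD⟩
    exact ⟨D / prin h, hD, prin h, ⟨h, rfl⟩, div_mul_cancel _ _⟩

theorem units_le_principal : units X ≤ principal X := le_sup_left

theorem prin_mem_principal (h : (X.functionField)ˣ) : (prin h : CDiv X) ∈ principal X :=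
  (le_sup_right : (prin (X := X)).range ≤ principal X) ⟨h, rfl⟩

/-- linear equivalence of Cartier divisors -/
def LinEquiv (D E : CDiv X) : Prop := D / E ∈ principal X

theorem LinEquiv.refl (D : CDiv X) : LinEquiv D D := by
  unfold LinEquiv
  rw [div_self']
  exact one_mem _

theorem LinEquiv.symm {D E : CDiv X} (h : LinEquiv D E) : LinEquiv E D := by
  unfold LinEquiv at *
  have := inv_mem h
  rwa [inv_div] at this

theorem LinEquiv.trans {D E F : CDiv X} (h : LinEquiv D E) (h' : LinEquiv E F) :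
    LinEquiv D F := by
  unfold LinEquiv at *
  have := mul_mem h h'
  rwa [div_mul_div_cancel] at this

theorem LinEquiv.mul {D D' E E' : CDiv X} (h : LinEquiv D D') (h' : LinEquiv E E') :
    LinEquiv (D * E) (D' * E') := by
  unfold LinEquiv at *
  have := mul_mem h h'
  rwa [← mul_div_mul_comm] at this

theorem LinEquiv.inv {D E : CDiv X} (h : LinEquiv D E) : LinEquiv D⁻¹ E⁻¹ := by
  unfold LinEquiv at *
  rw [inv_div_inv]
  have := inv_mem h
  rwa [inv_div] at this

/-- the class group -/
abbrev CaCl (X : Scheme.{u}) [IsIntegral X] : Type u := CDiv X ⧸ principal X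

end CDiv

end CDiv

/-! ### pull-back along an arbitrary morphism -/

section Pull

variable {X Y Z : Scheme.{u}} [IsIntegral X] [IsIntegral Y] [IsIntegral Z]

/-- pull-back of the units of the local ring at the image of the generic point -/
def pbU (ψ : Y ⟶ X) : stalkUnits X (ψ (genericPoint Y)) →* (Y.functionField)ˣ :=
  (Units.map (pbFF ψ).toMonoidHom).comp (liftUnit X (ψ (genericPoint Y))).toMonoidHom

theorem pbU_toFFU (ψ : Y ⟶ X) (u : (X.presheaf.stalk (ψ (genericPoint Y)))ˣ) :
    pbU ψ ⟨toFFU X _ u, toFFU_mem X _ u⟩ = Units.map (pbFF ψ).toMonoidHom u := by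
  show Units.map (pbFF ψ).toMonoidHom (liftUnit X _ ⟨toFFU X _ u, toFFU_mem X _ u⟩) = _
  rw [liftUnit_toFFU]

/-- the local homomorphism at `y` on units -/
def stalkMapU (ψ : Y ⟶ X) (y : Y) : (X.presheaf.stalk (ψ y))ˣ →* (Y.presheaf.stalk y)ˣ :=
  Units.map (ψ.stalkMap y).hom.toMonoidHom

/-- **naturality on units**: a unit at `ψ y`, pulled back, is a unit at `y` -/
theorem pbU_toFFU_of_point (ψ : Y ⟶ X) (y : Y) (v : (X.presheaf.stalk (ψ y))ˣ) :
    pbU ψ ⟨toFFU X (ψ y) v,
        stalkUnits_mono X (map_generic_specializes ψ y) (toFFU_mem X _ v)⟩ =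
      toFFU Y y (stalkMapU ψ y v) := by
  have e : (⟨toFFU X (ψ y) v,
        stalkUnits_mono X (map_generic_specializes ψ y) (toFFU_mem X _ v)⟩ :
      stalkUnits X (ψ (genericPoint Y))) =
      ⟨toFFU X _ (specU X (map_generic_specializes ψ y) v), toFFU_mem X _ _⟩ :=
    Subtype.ext (toFFU_specU X _ v).symm
  rw [e, pbU_toFFU]
  apply Units.ext
  exact (toFF_stalkMap ψ y (v : X.presheaf.stalk (ψ y))).symm

theorem pbU_mem_stalkUnits (ψ : Y ⟶ X) (y : Y) {q : (X.functionField)ˣ}
    (hq : q ∈ stalkUnits X (ψ y)) :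
    pbU ψ ⟨q, stalkUnits_mono X (map_generic_specializes ψ y) hq⟩ ∈ stalkUnits Y y := by
  obtain ⟨v, rfl⟩ := hq
  rw [pbU_toFFU_of_point]
  exact toFFU_mem Y y _

namespace CDiv

/-- the quotient `D x / D x₀` as an element of the units at `x₀ = ψ η_Y` -/
def quot (ψ : Y ⟶ X) (D : CDiv X) (y : Y) : stalkUnits X (ψ (genericPoint Y)) :=
  ⟨D.t (ψ y) / D.t (ψ (genericPoint Y)), D.div_mem_of_specializes (map_generic_specializes ψ y)⟩

theorem quot_mul (ψ : Y ⟶ X) (D E : CDiv X) (y : Y) :
    quot ψ (D * E) y = quot ψ D y * quot ψ E y :=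
  Subtype.ext (mul_div_mul_comm _ _ _ _)

theorem quot_div_quot (ψ : Y ⟶ X) (D : CDiv X) (y y' : Y) :
    ((quot ψ D y' / quot ψ D y : stalkUnits X (ψ (genericPoint Y))) : (X.functionField)ˣ) =
      D.t (ψ y') / D.t (ψ y) := by
  show (D.t (ψ y') / D.t (ψ (genericPoint Y))) / (D.t (ψ y) / D.t (ψ (genericPoint Y))) = _
  rw [div_div_div_cancel_right]

/-- the pulled-back family -/
def pullFun (ψ : Y ⟶ X) (D : CDiv X) (y : Y) : (Y.functionField)ˣ := pbU ψ (quot ψ D y)

theorem pullFun_coherent (ψ : Y ⟶ X) (D : CDiv X) : pullFun ψ D ∈ cdivSubgroup Y := by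
  intro y
  obtain ⟨U, hxU, hU⟩ := D.coherent (ψ y)
  refine ⟨ψ ⁻¹ᵁ U, hxU, fun y' hy' => ?_⟩
  have hq : D.t (ψ y') / D.t (ψ y) ∈ stalkUnits X (ψ y') := hU (ψ y') hy'
  have e : pullFun ψ D y' / pullFun ψ D y =
      pbU ψ ⟨D.t (ψ y') / D.t (ψ y),
        stalkUnits_mono X (map_generic_specializes ψ y') hq⟩ := by
    unfold pullFun
    rw [← map_div]
    congr 1
    exact Subtype.ext (quot_div_quot ψ D y y')
  rw [e]
  exact pbU_mem_stalkUnits ψ y' hq

/-- **PULL-BACK OF CARTIER DIVISORS ALONG AN ARBITRARY MORPHISM** (a group homomorphism) -/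
def pull (ψ : Y ⟶ X) : CDiv X →* CDiv Y :=
  MonoidHom.mk' (fun D => ⟨pullFun ψ D, pullFun_coherent ψ D⟩) (fun D E => by
    apply CDiv.ext
    intro y
    show pbU ψ (quot ψ (D * E) y) = pbU ψ (quot ψ D y) * pbU ψ (quot ψ E y)
    rw [quot_mul, map_mul])

theorem pull_t (ψ : Y ⟶ X) (D : CDiv X) (y : Y) : (pull ψ D).t y = pbU ψ (quot ψ D y) := rfl

/-- principal divisors pull back to the trivial divisor -/
theorem pull_prin (ψ : Y ⟶ X) (h : (X.functionField)ˣ) : pull ψ (prin h) = 1 := by
  apply CDiv.ext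
  intro y
  rw [pull_t, one_t]
  have : quot ψ (prin h) y = 1 := Subtype.ext (div_self' h)
  rw [this, map_one]

/-- a map which is constant on points pulls every divisor back to the trivial divisor -/
theorem pull_of_const (ψ : Y ⟶ X) (hψ : ∀ y : Y, ψ y = ψ (genericPoint Y)) (D : CDiv X) :
    pull ψ D = 1 := by
  apply CDiv.ext
  intro y
  rw [pull_t, one_t]
  have : quot ψ D y = 1 := Subtype.ext (by
    show D.t (ψ y) / D.t (ψ (genericPoint Y)) = 1
    rw [hψ y, div_self'])
  rw [this, map_one]

/-- the unit `c = ψ^*(D x₀)` by which the moved pull-back differs from the literal one -/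
def pullConst (ψ : Y ⟶ X) (D : CDiv X)
    (hD : D.t (ψ (genericPoint Y)) ∈ stalkUnits X (ψ (genericPoint Y))) :
    (Y.functionField)ˣ := pbU ψ ⟨_, hD⟩

/-- trivial divisors pull back to principal divisors -/
theorem pull_mem_principal_of_mem_units (ψ : Y ⟶ X) {D : CDiv X} (hD : D ∈ units X) :
    pull ψ D ∈ principal Y := by
  rw [mem_principal_iff]
  refine ⟨(pullConst ψ D (hD _))⁻¹, ?_⟩
  intro y
  rw [div_t, prin_t, pull_t, div_inv_eq_mul]
  have hq : D.t (ψ y) ∈ stalkUnits X (ψ y) := hD (ψ y)
  have e : pbU ψ (quot ψ D y) * pullConst ψ D (hD _) =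
      pbU ψ ⟨D.t (ψ y), stalkUnits_mono X (map_generic_specializes ψ y) hq⟩ := by
    unfold pullConst
    rw [← map_mul]
    congr 1
    exact Subtype.ext (div_mul_cancel _ _)
  rw [e]
  exact pbU_mem_stalkUnits ψ y hq

/-- principal divisors pull back to principal divisors -/
theorem pull_mem_principal (ψ : Y ⟶ X) {D : CDiv X} (hD : D ∈ principal X) :
    pull ψ D ∈ principal Y := by
  obtain ⟨h, hh⟩ := mem_principal_iff.1 hD
  have := pull_mem_principal_of_mem_units ψ hh
  rwa [map_div, pull_prin, div_one] at this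

/-- **pull-back respects linear equivalence** -/
theorem LinEquiv.pull (ψ : Y ⟶ X) {D E : CDiv X} (h : LinEquiv D E) :
    LinEquiv (pull ψ D) (pull ψ E) := by
  unfold LinEquiv at *
  rw [← map_div]
  exact pull_mem_principal ψ h

/-- pull-back on divisor classes -/
def pullCl (ψ : Y ⟶ X) : CaCl X →* CaCl Y :=
  QuotientGroup.map (principal X) (principal Y) (pull ψ) (fun _ hD => pull_mem_principal ψ hD)

end CDiv

end Pull

end Fermat.Agent.S26lib.Hub
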