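/-
S26lib / Hub / CaClFun  (helper7)  --  Project K (S26), cube kernel

Functoriality of the pull-back of Cartier divisors (`Hub/CaCl`) and the bridge to helper1's
effective families of local equations (`Quad/LocEq`):

* `CDiv.pull_comp : pull φ (pull ψ D) = pull (φ ≫ ψ) D` (an equality of families),
  `CDiv.pull_id : pull (𝟙 X) D = D / prin (D.t η)`;
* `CDiv.pull_t_of_dominant` : for dominant `ψ` the pull-back is the literal one divided by a constant;
* `exists_nhds_of_mem_stalkUnits` : a unit at `x` is a unit near `x`;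
* `CDiv.ofEff P` : the Cartier divisor of a coherent family of non-zero local equations,
  `CDiv.ofLocFam P N = ofEff P / ofEff N`, `isDivOf_iff` : `IsDivOf H P N ↔ ofLocFam P N / prin H`
  is trivial;
* `CDiv.pull_ofEff` : if the image of the generic point is outside the support, the pull-back is the
  literal pull-back of the local equations, divided by a constant.
-/
import Fermat.Agent.S26lib.Hub.CaCl
import Fermat.Agent.S26lib.FinMap.FFMap

set_option autoImplicit false
set_option linter.unusedSectionVars false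

noncomputable section

namespace Fermat.Agent.S26lib.Hub

open AlgebraicGeometry CategoryTheory TopologicalSpace Fermat.Agent.S26lib.Quad Opposite

universe u

section Fun

variable {X Y Z : Scheme.{u}} [IsIntegral X] [IsIntegral Y] [IsIntegral Z]

namespace CDiv

/-- computing the pull-back with a chosen unit at the image of the generic point -/
theorem pull_t_eq (ψ : Y ⟶ X) (D : CDiv X) (y : Y)
    (v : (X.presheaf.stalk (ψ (genericPoint Y)))ˣ)
    (hv : toFFU X _ v = D.t (ψ y) / D.t (ψ (genericPoint Y))) :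
    (pull ψ D).t y = Units.map (pbFF ψ).toMonoidHom v := by
  rw [pull_t]
  have : quot ψ D y = ⟨toFFU X _ v, toFFU_mem X _ v⟩ := Subtype.ext hv.symm
  rw [this, pbU_toFFU]

/-- the quotient of two pulled-back local equations, computed with a unit at `ψ y` -/
theorem pull_t_div (ψ : Y ⟶ X) (D : CDiv X) (y y' : Y) (v : (X.presheaf.stalk (ψ y))ˣ)
    (hv : toFFU X (ψ y) v = D.t (ψ y') / D.t (ψ y)) :
    (pull ψ D).t y' / (pull ψ D).t y = toFFU Y y (stalkMapU ψ y v) := by
  rw [← pbU_toFFU_of_point, pull_t, pull_t, ← map_div]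
  congr 1
  apply Subtype.ext
  rw [quot_div_quot]
  exact hv.symm

/-- **the pull-back is strictly functorial** -/
theorem pull_comp (φ : Z ⟶ Y) (ψ : Y ⟶ X) (D : CDiv X) :
    pull φ (pull ψ D) = pull (φ ≫ ψ) D := by
  apply CDiv.ext
  intro z
  have hq : D.t ((φ ≫ ψ) z) / D.t ((φ ≫ ψ) (genericPoint Z)) ∈
      stalkUnits X ((φ ≫ ψ) (genericPoint Z)) :=
    D.div_mem_of_specializes (map_generic_specializes (φ ≫ ψ) z)
  obtain ⟨v, hv⟩ := hq
  have hR : (pull (φ ≫ ψ) D).t z = Units.map (pbFF (φ ≫ ψ)).toMonoidHom v :=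
    pull_t_eq (φ ≫ ψ) D z v hv
  have hL : (pull φ (pull ψ D)).t z =
      Units.map (pbFF φ).toMonoidHom (stalkMapU ψ (φ (genericPoint Z)) v) :=
    pull_t_eq φ (pull ψ D) z _ (pull_t_div ψ D (φ (genericPoint Z)) (φ z) v hv).symm
  rw [hL, hR]
  apply Units.ext
  show (φ.stalkMap (genericPoint Z)).hom ((ψ.stalkMap (φ (genericPoint Z))).hom
      (Units.val (α := X.presheaf.stalk (ψ (φ (genericPoint Z)))) v)) =
    ((φ ≫ ψ).stalkMap (genericPoint Z)).hom v
  rw [Scheme.Hom.stalkMap_comp]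
  rfl

theorem pull_congr {ψ ψ' : Y ⟶ X} (h : ψ = ψ') (D : CDiv X) : pull ψ D = pull ψ' D := by
  subst h; rfl

/-- for a dominant morphism the pull-back is the literal one, divided by a constant -/
theorem pull_t_of_dominant (ψ : Y ⟶ X) [IsDominant ψ] (D : CDiv X) (y : Y) :
    (((pull ψ D).t y : (Y.functionField)ˣ) : Y.functionField) =
      FinMap.ffMap ψ (D.t (ψ y)) / FinMap.ffMap ψ (D.t (ψ (genericPoint Y))) := by
  have hq : D.t (ψ y) / D.t (ψ (genericPoint Y)) ∈ stalkUnits X (ψ (genericPoint Y)) :=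
    D.div_mem_of_specializes (map_generic_specializes ψ y)
  obtain ⟨v, hv⟩ := hq
  rw [pull_t_eq ψ D y v hv, ← map_div₀]
  have h1 : ((D.t (ψ y) : (X.functionField)ˣ) : X.functionField) /
      ((D.t (ψ (genericPoint Y)) : (X.functionField)ˣ) : X.functionField) =
      toFF X _ (v : X.presheaf.stalk (ψ (genericPoint Y))) := by
    rw [← Units.val_div_eq_div_val, ← hv]
    rfl
  rw [h1, ← FinMap.toFF_stalkMap_ffMap, toFF_generic]
  rfl

/-- the identity pulls `D` back to `D` moved by its equation at the generic point -/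
theorem pull_id (D : CDiv X) : pull (𝟙 X) D = D / prin (D.t (genericPoint X)) := by
  apply CDiv.ext
  intro x
  have hq : D.t ((𝟙 X : X ⟶ X) x) / D.t ((𝟙 X : X ⟶ X) (genericPoint X)) ∈
      stalkUnits X ((𝟙 X : X ⟶ X) (genericPoint X)) :=
    D.div_mem_of_specializes (map_generic_specializes (𝟙 X) x)
  obtain ⟨v, hv⟩ := hq
  rw [pull_t_eq (𝟙 X) D x v hv, div_t, prin_t]
  apply Units.ext
  have h2 : ((𝟙 X : X ⟶ X).stalkMap (genericPoint X)).hom
      (Units.val (α := X.presheaf.stalk ((𝟙 X : X ⟶ X) (genericPoint X))) v) =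
      Units.val (α := X.presheaf.stalk (genericPoint X)) v := by
    rw [Scheme.Hom.stalkMap_id]
    rfl
  show ((𝟙 X : X ⟶ X).stalkMap (genericPoint X)).hom
      (Units.val (α := X.presheaf.stalk ((𝟙 X : X ⟶ X) (genericPoint X))) v) = _
  rw [h2]
  have h3 := congrArg (fun q : (X.functionField)ˣ => (q : X.functionField)) hv
  simp only [coe_toFFU] at h3
  rw [← toFF_generic X (Units.val (α := X.presheaf.stalk (genericPoint X)) v)]
  exact h3

theorem linEquiv_pull_id (D : CDiv X) : LinEquiv (pull (𝟙 X) D) D := by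
  unfold LinEquiv
  rw [pull_id, div_div_cancel_left]
  exact inv_mem (prin_mem_principal _)

/-- a section `r : X ⟶ Y` of `ψ : Y ⟶ X` recovers the class -/
theorem linEquiv_pull_pull_of_section (r : X ⟶ Y) (ψ : Y ⟶ X) (h : r ≫ ψ = 𝟙 X) (D : CDiv X) :
    LinEquiv (pull r (pull ψ D)) D := by
  rw [pull_comp, pull_congr h]
  exact linEquiv_pull_id D

end CDiv

end Fun

section Eff
variable {X Y : Scheme.{u}} [IsIntegral X] [IsIntegral Y]

/-- the germs of one section have the same image in the function field -/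
theorem toFF_germ_eq (U : X.Opens) {x y : X} (hx : x ∈ U) (hy : y ∈ U) (s : Γ(X, U)) :
    toFF X x (X.presheaf.germ U x hx s) = toFF X y (X.presheaf.germ U y hy s) := by
  have key : ∀ (z : X) (hz : z ∈ U), toFF X z (X.presheaf.germ U z hz s) =
      X.presheaf.germ U (genericPoint X)
        ((generic_specializes X z).mem_open U.isOpen hz) s := by
    intro z hz
    rw [toFF_eq]
    exact congrArg (fun φ => φ.hom s)
      (X.presheaf.germ_stalkSpecializes hz (generic_specializes X z))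
  rw [key x hx, key y hy]

/-- **a unit at `x` is a unit near `x`** -/
theorem exists_nhds_of_mem_stalkUnits {x : X} {q : (X.functionField)ˣ}
    (hq : q ∈ stalkUnits X x) : ∃ U : X.Opens, x ∈ U ∧ ∀ y ∈ U, q ∈ stalkUnits X y := by
  obtain ⟨u, rfl⟩ := hq
  obtain ⟨V, hxV, s, hs⟩ := X.presheaf.exists_germ_eq (u : X.presheaf.stalk x)
  have hu : IsUnit (X.presheaf.germ V x hxV s) := by rw [hs]; exact u.isUnit
  obtain ⟨W, i, hxW, hW⟩ :=
    X.toLocallyRingedSpace.toRingedSpace.isUnit_res_of_isUnit_germ V s x hxV hu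
  refine ⟨W, hxW, fun y hy => ?_⟩
  have hy' : IsUnit (X.presheaf.germ W y hy (X.presheaf.map i.op s)) :=
    hW.map (X.presheaf.germ W y hy).hom
  refine ⟨hy'.unit, ?_⟩
  apply Units.ext
  show toFF X y (X.presheaf.germ W y hy (X.presheaf.map i.op s)) = toFF X x u
  rw [toFF_germ_eq W hy hxW, X.presheaf.germ_res_apply i x hxW s, hs]

/-- a coherence criterion with an arbitrary reference function (helper1's form) -/
theorem mem_cdivSubgroup_of_exists {t : X → (X.functionField)ˣ}
    (h : ∀ x : X, ∃ (U : X.Opens) (s : (X.functionField)ˣ), x ∈ U ∧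
      ∀ y ∈ U, t y / s ∈ stalkUnits X y) : t ∈ cdivSubgroup X := by
  intro x
  obtain ⟨U, s, hxU, hU⟩ := h x
  obtain ⟨V, hxV, hV⟩ := exists_nhds_of_mem_stalkUnits (hU x hxU)
  refine ⟨U ⊓ V, ⟨hxU, hxV⟩, fun y hy => ?_⟩
  have e : t y / t x = (t y / s) / (t x / s) := (div_div_div_cancel_right _ _ _).symm
  rw [e]
  exact div_mem (hU y hy.1) (hV y hy.2)

namespace CDiv

theorem ofEff_aux (P : LocFam X) (hP : P.IsCoherent) (h0 : ∀ x, P.t x ≠ 0) :
    (fun x => Units.mk0 (toFF X x (P.t x)) (toFF_ne_zero X (h0 x))) ∈ cdivSubgroup X := by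
  apply mem_cdivSubgroup_of_exists
  intro x
  obtain ⟨U, hxU, s, hs⟩ := hP x
  have hg : toFF X x (X.presheaf.germ U x hxU s) ≠ 0 := by
    apply toFF_ne_zero
    intro h
    obtain ⟨a, ha⟩ := hs x hxU
    apply h0 x
    rw [← ha, h, zero_mul]
  refine ⟨U, Units.mk0 _ hg, hxU, fun y hy => ?_⟩
  obtain ⟨a, ha⟩ := hs y hy
  refine ⟨a, ?_⟩
  apply Units.ext
  show toFF X y a = toFF X y (P.t y) / toFF X x (X.presheaf.germ U x hxU s)
  rw [← ha, map_mul, toFF_germ_eq U hy hxU, mul_div_cancel_left₀ _ hg]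

/-- **the Cartier divisor of a coherent family of non-zero local equations** -/
def ofEff (P : LocFam X) (hP : P.IsCoherent) (h0 : ∀ x, P.t x ≠ 0) : CDiv X :=
  ⟨fun x => Units.mk0 (toFF X x (P.t x)) (toFF_ne_zero X (h0 x)), ofEff_aux P hP h0⟩

@[simp] theorem ofEff_t_val (P : LocFam X) (hP : P.IsCoherent) (h0 : ∀ x, P.t x ≠ 0) (x : X) :
    (((ofEff P hP h0).t x : (X.functionField)ˣ) : X.functionField) = toFF X x (P.t x) := rfl

/-- effective Cartier divisors: the local equations are regular -/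
def IsEff (D : CDiv X) : Prop := ∀ x, ((D.t x : (X.functionField)ˣ) : X.functionField) ∈
  Set.range (toFF X x)

theorem ofEff_isEff (P : LocFam X) (hP : P.IsCoherent) (h0 : ∀ x, P.t x ≠ 0) :
    (ofEff P hP h0).IsEff := fun x => ⟨P.t x, rfl⟩

/-- **bridge to `IsDivOf`** -/
theorem isDivOf_iff (H : (X.functionField)ˣ) {P N : LocFam X} (hP : P.IsCoherent)
    (hN : N.IsCoherent) (hP0 : ∀ x, P.t x ≠ 0) (hN0 : ∀ x, N.t x ≠ 0) :
    IsDivOf (H : X.functionField) P N ↔
      ofEff P hP hP0 / ofEff N hN hN0 / prin H ∈ units X := by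
  have hNx : ∀ x, toFF X x (N.t x) ≠ 0 := fun x => toFF_ne_zero X (hN0 x)
  constructor
  · intro h x
    obtain ⟨ε, hε⟩ := h x
    refine ⟨ε, ?_⟩
    apply Units.ext
    rw [div_t, div_t, prin_t, Units.val_div_eq_div_val, Units.val_div_eq_div_val]
    show toFF X x ε = toFF X x (P.t x) / toFF X x (N.t x) / (H : X.functionField)
    rw [← hε, mul_div_cancel_right₀ _ (hNx x), mul_div_cancel_right₀ _ H.ne_zero]
  · intro h x
    obtain ⟨ε, hε⟩ := h x
    refine ⟨ε, ?_⟩
    have h1 : toFF X x ε = toFF X x (P.t x) / toFF X x (N.t x) / (H : X.functionField) := by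
      have := congrArg (fun q : (X.functionField)ˣ => (q : X.functionField)) hε
      simp only [div_t, prin_t, Units.val_div_eq_div_val] at this
      exact this
    rw [h1, div_mul_cancel₀ _ H.ne_zero, div_mul_cancel₀ _ (hNx x)]

theorem ofEff_div_ofEff_mem_principal_iff {P N : LocFam X} (hP : P.IsCoherent)
    (hN : N.IsCoherent) (hP0 : ∀ x, P.t x ≠ 0) (hN0 : ∀ x, N.t x ≠ 0) :
    ofEff P hP hP0 / ofEff N hN hN0 ∈ principal X ↔
      ∃ H : X.functionField, H ≠ 0 ∧ IsDivOf H P N := by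
  rw [mem_principal_iff]
  constructor
  · rintro ⟨H, hH⟩
    exact ⟨H, H.ne_zero, (isDivOf_iff H hP hN hP0 hN0).2 hH⟩
  · rintro ⟨H, hH0, hH⟩
    exact ⟨Units.mk0 H hH0, (isDivOf_iff (Units.mk0 H hH0) hP hN hP0 hN0).1 hH⟩


theorem ofEff_one (h : (1 : LocFam X).IsCoherent) (h0 : ∀ x, (1 : LocFam X).t x ≠ 0) :
    ofEff (1 : LocFam X) h h0 = 1 := by
  apply CDiv.ext
  intro x
  apply Units.ext
  show toFF X x 1 = 1
  rw [map_one]

theorem ofEff_mul (P Q : LocFam X) (hP : P.IsCoherent) (hQ : Q.IsCoherent)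
    (hPQ : (P * Q).IsCoherent) (hP0 : ∀ x, P.t x ≠ 0) (hQ0 : ∀ x, Q.t x ≠ 0)
    (hPQ0 : ∀ x, (P * Q).t x ≠ 0) :
    ofEff (P * Q) hPQ hPQ0 = ofEff P hP hP0 * ofEff Q hQ hQ0 := by
  apply CDiv.ext
  intro x
  apply Units.ext
  show toFF X x (P.t x * Q.t x) = toFF X x (P.t x) * toFF X x (Q.t x)
  rw [map_mul]

theorem ofEff_pow (P : LocFam X) (n : ℕ) (hP : P.IsCoherent) (hPn : (P ^ n).IsCoherent)
    (hP0 : ∀ x, P.t x ≠ 0) (hPn0 : ∀ x, (P ^ n).t x ≠ 0) :
    ofEff (P ^ n) hPn hPn0 = ofEff P hP hP0 ^ n := by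
  apply CDiv.ext
  intro x
  apply Units.ext
  show toFF X x (P.t x ^ n) = ((ofEff P hP hP0 ^ n : CDiv X).t x : (X.functionField)ˣ).1
  have : (ofEff P hP hP0 ^ n : CDiv X).t x = (ofEff P hP hP0).t x ^ n := rfl
  rw [this, Units.val_pow_eq_pow_val, map_pow]
  rfl

/-- equivalent families give the same divisor up to a trivial one -/
theorem ofEff_div_ofEff_mem_units {P Q : LocFam X} (h : P.Equiv Q) (hP : P.IsCoherent)
    (hQ : Q.IsCoherent) (hP0 : ∀ x, P.t x ≠ 0) (hQ0 : ∀ x, Q.t x ≠ 0) :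
    ofEff Q hQ hQ0 / ofEff P hP hP0 ∈ units X := by
  intro x
  obtain ⟨a, ha⟩ := h x
  refine ⟨a, ?_⟩
  apply Units.ext
  rw [div_t, Units.val_div_eq_div_val]
  show toFF X x a = toFF X x (Q.t x) / toFF X x (P.t x)
  rw [← ha, map_mul, mul_div_cancel_left₀ _ (toFF_ne_zero X (hP0 x))]

/-- the local equation at a point outside the support is a unit -/
theorem ofEff_t_mem_stalkUnits (P : LocFam X) (hP : P.IsCoherent) (h0 : ∀ x, P.t x ≠ 0) {x : X}
    (hx : x ∉ P.supp) : (ofEff P hP h0).t x ∈ stalkUnits X x := by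
  have hu : IsUnit (P.t x) := (LocFam.not_mem_supp_iff P x).1 hx
  exact ⟨hu.unit, Units.ext rfl⟩

/-- **the pull-back of an effective divisor whose support does not contain the image**: the
literal pull-back of the local equations, divided by a constant -/
theorem pull_ofEff (ψ : Y ⟶ X) (P : LocFam X) (hP : P.IsCoherent) (h0 : ∀ x, P.t x ≠ 0)
    (hη : ψ (genericPoint Y) ∉ P.supp) :
    pull ψ (ofEff P hP h0) =
      ofEff (P.pullback ψ) (hP.pullback ψ) (LocFam.pullback_t_ne_zero hP ψ hη) /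
        prin (pullConst ψ (ofEff P hP h0) (ofEff_t_mem_stalkUnits P hP h0 hη)) := by
  apply CDiv.ext
  intro y
  rw [div_t, prin_t, eq_div_iff_mul_eq', pull_t]
  unfold pullConst
  rw [← map_mul]
  -- the unit at the image of the generic point
  have hu : IsUnit (X.presheaf.stalkSpecializes (map_generic_specializes ψ y) (P.t (ψ y))) := by
    rw [(hP.spec (map_generic_specializes ψ y)).isUnit_iff]
    exact (LocFam.not_mem_supp_iff P _).1 hη
  have e : quot ψ (ofEff P hP h0) y *
      ⟨(ofEff P hP h0).t (ψ (genericPoint Y)), ofEff_t_mem_stalkUnits P hP h0 hη⟩ =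
      ⟨toFFU X _ hu.unit, toFFU_mem X _ _⟩ := by
    apply Subtype.ext
    apply Units.ext
    show ((ofEff P hP h0).t (ψ y) / (ofEff P hP h0).t (ψ (genericPoint Y)) *
      (ofEff P hP h0).t (ψ (genericPoint Y)) : (X.functionField)ˣ).1 = _
    rw [div_mul_cancel]
    exact (toFF_spec X (map_generic_specializes ψ y) (P.t (ψ y))).symm
  rw [e, pbU_toFFU]
  apply Units.ext
  exact (toFF_stalkMap ψ y (P.t (ψ y))).symm

end CDiv
end Eff
end Fermat.Agent.S26lib.Hub
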