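/-
S26lib / Hub / Faces  (helper7)  --  Project K (S26), cube kernel, step (M)(d): THE TOPOLOGY

`V`, `W` irreducible `K`-schemes locally of finite type over `K = K̄`, `V` PROPER, `T = V ×_K W`.
A closed irreducible subset `S ⊆ T` of codimension `≤ 1` (every irreducible closed `S' ⊇ S` is `S`
or everything) meets one of the two faces `V × {w₀}`, `{v₀} × W` in a `K`-point:

* `pr_W(S)` is closed (`V` proper) and irreducible; if `w₀ ∈ pr_W(S)` then `S ∩ (V × {w₀}) ≠ ∅`
  contains a closed point;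
* otherwise `S ⊆ V × pr_W(S) ⊊ T`, both irreducible closed, hence `S = V × pr_W(S)`, which
  contains `(v₀, b)` for every `K`-point `b` of `pr_W(S)`.

No dimension theory.  (helper6's `Prod/Irreducible` + `Prod/KPoints`.)
-/
import Fermat.Agent.S26lib.Prod.Irreducible

set_option autoImplicit false
set_option linter.unusedSectionVars false

noncomputable section

namespace Fermat.Agent.S26lib.Hub

open CategoryTheory CategoryTheory.Limits AlgebraicGeometry TopologicalSpace
open Fermat.Agent.S26lib.Prod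

universe u

variable {K : Type u} [Field K] [IsAlgClosed K] {V W : Scheme.{u}}
  (sV : V ⟶ Spec (CommRingCat.of K)) (sW : W ⟶ Spec (CommRingCat.of K))

/-- the second projection of `V ×_K W` is a closed map when `V` is universally closed over `K` -/
theorem isClosedMap_snd [UniversallyClosed sV] : IsClosedMap (pullback.snd sV sW) :=
  (pullback.snd sV sW).isClosedMap

/-- **(M)(d)**: a closed irreducible subset of codimension `≤ 1` of `V ×_K W`, `V` proper, meets
`V × {w₀}` or `{v₀} × W` in a `K`-point. -/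
theorem exists_kPt_mem_face [UniversallyClosed sV] [LocallyOfFiniteType sV]
    [LocallyOfFiniteType sW] [IrreducibleSpace V]
    (v₀ : KPt sV) (w₀ : KPt sW) {S : Set ↥(pullback sV sW)} (hS : IsIrreducible S)
    (hSc : IsClosed S)
    (hcodim : ∀ S' : Set ↥(pullback sV sW), IsIrreducible S' → IsClosed S' → S ⊆ S' →
      S' = S ∨ S' = Set.univ) :
    ∃ t : KPt (sProd sV sW), t.pt ∈ S ∧ (KPt.fstK sV sW t = v₀ ∨ KPt.sndK sV sW t = w₀) := by
  set p₂ := pullback.snd sV sW with hp₂
  -- the image of `S` in `W`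
  have hS'c : IsClosed (p₂ '' S) := isClosedMap_snd sV sW S hSc
  have hS'i : IsIrreducible (p₂ '' S) := hS.image p₂ p₂.continuous.continuousOn
  by_cases hw : w₀.pt ∈ p₂ '' S
  · -- `S` meets the face `V × {w₀}`
    have hlc : IsLocallyClosed (S ∩ p₂ ⁻¹' {w₀.pt}) :=
      (hSc.inter ((KPt.isClosed_pt w₀).preimage p₂.continuous)).isLocallyClosed
    obtain ⟨s, hsS, hs⟩ := hw
    obtain ⟨t, htS, ht⟩ := KPt.exists_kPt_mem_of_isLocallyClosed (sProd sV sW) hlc ⟨s, hsS, hs⟩
    exact ⟨t, htS, Or.inr (KPt.ext_pt ht)⟩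
  · -- `S = V × pr_W(S)` meets the face `{v₀} × W`
    have hpre : IsIrreducible (p₂ ⁻¹' (p₂ '' S)) := isIrreducible_preimage_snd sV sW hS'i hS'c
    have hprec : IsClosed (p₂ ⁻¹' (p₂ '' S)) := hS'c.preimage p₂.continuous
    have hne : p₂ ⁻¹' (p₂ '' S) ≠ Set.univ := by
      intro h
      have : (pairK sV sW v₀ w₀).pt ∈ p₂ ⁻¹' (p₂ '' S) := h ▸ Set.mem_univ _
      rw [Set.mem_preimage, hp₂, snd_pairK_pt] at this
      exact hw this
    have hEq : p₂ ⁻¹' (p₂ '' S) = S :=
      (hcodim _ hpre hprec (Set.subset_preimage_image p₂ S)).resolve_right hne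
    obtain ⟨b, hb⟩ := KPt.exists_kPt_mem_of_isLocallyClosed sW hS'c.isLocallyClosed hS'i.nonempty
    refine ⟨pairK sV sW v₀ b, ?_, Or.inl ?_⟩
    · rw [← hEq, Set.mem_preimage, hp₂, snd_pairK_pt]
      exact hb
    · apply KPt.ext_pt
      show (pullback.fst sV sW) (pairK sV sW v₀ b).pt = v₀.pt
      exact fst_pairK_pt sV sW v₀ b

end Fermat.Agent.S26lib.Hub
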