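/-
S26lib / Hub / Final  (helper7, architect)  --  Project K (S26): THE FINAL ASSEMBLY

`#A[n](K) = n ^ (2 g)` for an abelian variety over an algebraically closed field, `(n : K) ≠ 0`,
from ONE remaining input: the PARALLELOGRAM FUNCTION `H` on `A × A × A` (`ParaStatement`, the
output of block (Q): cube kernel + helper2's (Q1')/(Q2') + the glue `Quad/ParaGlue`).

Chain:  (P1) helper6 `card_torsion_eq_finrank_fieldRange_of_ne_zero` (torsion count = degree of
`[n]` on function fields, via helper3's `etale_schemeNsmul_of_field`)  →  (P2) helper9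
`Squeeze.finrank_fieldRange_eq_pow` with  (P5a) helper4 `growthHyp_abelian`,  the upper growth
bound helper5 `Growth.upper`,  (P5b) helper1 `finMapHyp_of_finite_unramified`,  and `hquad` from
helper1 `Quad.exists_hquad` ∘ `quadData3_of_para` fed by helper6's eight `psi3_*` identities.
-/
import Fermat.Agent.S26lib.Grp.P1
import Fermat.Agent.S26lib.Squeeze.ModelFinal
import Fermat.Agent.S26lib.Growth.FromHyp
import Fermat.Agent.S26lib.P5a.Abelian
import Fermat.Agent.S26lib.FinMap.OrdComp
import Fermat.Agent.S26lib.Quad.Final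
import Fermat.Agent.S26lib.Prod.Maps
import Fermat.Agent.S26lib.Prod.Integral
import Fermat.Agent.S26lib.UFD.Corollaries

set_option autoImplicit false
set_option linter.style.haveILetI false
set_option linter.unusedSectionVars false

noncomputable section

namespace Fermat.Agent.S26lib.Hub

open CategoryTheory CategoryTheory.Limits AlgebraicGeometry NeronModelInfra GoodReductionJacobian
open Fermat.Agent.S26lib Fermat.Agent.S26lib.Quad Fermat.Agent.S26lib.Prod

universe u

variable {K : Type u} [Field K] [IsAlgClosed K] {A : Scheme.{u}}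
  {f : A ⟶ Spec (CommRingCat.of K)}

/-- the stalks of the abelian variety are factorial (helper8) -/
theorem ufd_stalk (hA : AbelianSchemePropertyBundle K f) (x : A) :
    UniqueFactorizationMonoid (A.presheaf.stalk x) :=
  haveI := hA.smooth
  UFD.ufm_stalk_of_smooth f x

/-- **THE REMAINING INPUT (block (Q))**: the parallelogram function on `A × A × A`
(coordinates `(x, z, y)`): a rational function `H` with divisor
`σ13^*D + σ23^*D + σ_-^*D - 3 p3^*D - p1^*D - p2^*D - m12^*D`, `D` the reduced divisor
`A ∖ U₀` as a Cartier divisor (`Quad.Dc`). -/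
def ParaStatement (L : RelativeGroupLaw K f) (hA : AbelianSchemePropertyBundle K f) : Prop :=
  haveI := Weil.isIntegral_of_bundle hA
  haveI := Weil.isNoetherian_of_bundle hA
  haveI := Prod.isIntegral_A3' f hA
  ∃ H : (A3 f).functionField, IsDivOf H
    ((Dc L (ufd_stalk hA)).pullback (sig13 L) * (Dc L (ufd_stalk hA)).pullback (sig23 L) *
      (Dc L (ufd_stalk hA)).pullback (sigM L))
    ((Dc L (ufd_stalk hA)).pullback (pr3 : A3 f ⟶ A) ^ 3 *
      (Dc L (ufd_stalk hA)).pullback (pr1 : A3 f ⟶ A) *
      (Dc L (ufd_stalk hA)).pullback (pr2 : A3 f ⟶ A) *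
      (Dc L (ufd_stalk hA)).pullback (m12 L))

/-- the trivial case `n = 1` -/
theorem card_torsion_one (L : RelativeGroupLaw K f) :
    Nat.card {x : SchemeHomOver (𝟙 (Spec (CommRingCat.of K))) f //
        L.IsTorsionPoint (𝟙 (Spec (CommRingCat.of K))) 1 x} = 1 := by
  rw [Nat.card_eq_one_iff_unique]
  refine ⟨⟨fun a b => Subtype.ext ?_⟩, ⟨⟨L.one _, L.isTorsionPoint_unit _ 1⟩⟩⟩
  rw [(L.isTorsionPoint_one_iff _ a.1).1 a.2, (L.isTorsionPoint_one_iff _ b.1).1 b.2]

/-- **S26 from the parallelogram function.** -/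
theorem card_torsion_of_para (L : RelativeGroupLaw K f) (hc : L.IsCommutative)
    (hA : AbelianSchemePropertyBundle K f) (g : ℕ) [SmoothOfRelativeDimension g f] (n : ℕ)
    (hn : (n : K) ≠ 0) (hpara : ParaStatement L hA) :
    Nat.card {x : SchemeHomOver (𝟙 (Spec (CommRingCat.of K))) f //
        L.IsTorsionPoint (𝟙 (Spec (CommRingCat.of K))) n x} = n ^ (2 * g) := by
  -- `n = 0` is excluded, `n = 1` is trivial
  rcases Nat.lt_or_ge n 2 with hlt | hn2
  · interval_cases n
    · exact absurd (by simp) hn
    · rw [card_torsion_one L, one_pow]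
  haveI := Weil.isIntegral_of_bundle hA
  haveI := Weil.isNoetherian_of_bundle hA
  haveI := Prod.isIntegral_A3' f hA
  haveI := hA.proper
  -- (P1)
  obtain ⟨h, -, -, hcard⟩ :=
    card_torsion_eq_finrank_fieldRange_of_ne_zero L hc hA g n hn
  rw [hcard]
  -- the instances on `[n]`
  haveI : Etale (L.schemeNsmul n) := NMul.etale_schemeNsmul_of_field f L hc g n hn
  haveI : IsFinite (L.schemeNsmul n) :=
    (finite_etale_surjective_schemeNsmul L hc hA g n hn).1
  haveI : IsDominant (Weil.nMul L n) := ⟨h⟩
  letI := kAlgebraFF f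
  -- (P5a), upper bound, (P5b)
  have hG := P5a.growthHyp_abelian L hA g
  have hU := Growth.upper (Weil.model f) (Weil.D L) g hG
  have hν := FinMap.finMapHyp_of_finite_unramified f (L.schemeNsmul n) (L.schemeNsmul_over n) h
  -- (Q)
  obtain ⟨H, hH⟩ := hpara
  have Q := quadData3_of_para L (ufd_stalk hA) (ψ := fun a => psi3 L a)
    (fun a => psi3_sig13 L a) (fun a => psi3_sig23 L a) (fun a => psi3_sigM L a)
    (fun a => psi3_pr3 L a) (fun a => psi3_pr1 L a) (fun a => psi3_pr2 L a)
    (fun a => psi3_m12 L a) hH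
  have hquad := exists_hquad L (ufd_stalk hA) Q n
  exact Squeeze.finrank_fieldRange_eq_pow hG hU hν hn2 hquad

end Fermat.Agent.S26lib.Hub
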