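/-
S26lib / Hub / Degenerate  (helper7)  --  Project K (S26), final assembly

The degenerate case `dim A = 0`: if the origin is the generic point of `A`, then `A` is a point, the
divisor `D` is empty and `ParaStatement` holds with `H = 1`.  (The curve argument of block (C)
needs the origin to be different from the generic point.)
-/
import Fermat.Agent.S26lib.Hub.Final
import Fermat.Agent.S26lib.Prod.KPoints

set_option autoImplicit false
set_option linter.unusedSectionVars false
set_option linter.style.haveILetI false

noncomputable section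

namespace Fermat.Agent.S26lib.Hub

open CategoryTheory CategoryTheory.Limits AlgebraicGeometry NeronModelInfra GoodReductionJacobian
open Fermat.Agent.S26lib Fermat.Agent.S26lib.Quad Fermat.Agent.S26lib.Prod
  Fermat.Agent.S26lib.Weil

universe u

variable {K : Type u} [Field K] [IsAlgClosed K] {A : Scheme.{u}}
  {f : A ⟶ Spec (CommRingCat.of K)}

/-- the origin is a closed point -/
theorem isClosed_zeroPt (L : RelativeGroupLaw K f) : IsClosed ({zeroPt L} : Set A) := by
  have h := Prod.KPt.isClosed_pt (s := f) (NMul.onePt L)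
  have e : Prod.KPt.pt (s := f) (NMul.onePt L) = zeroPt L :=
    congrArg (NMul.oneHom L) (Subsingleton.elim _ _)
  rwa [e] at h

/-- if the origin is the generic point, `A` is a point -/
theorem eq_zeroPt_of_degenerate [IsIntegral A] (L : RelativeGroupLaw K f)
    (h0 : zeroPt L = genericPoint A) (x : A) : x = zeroPt L := by
  have h1 : x ∈ closure ({zeroPt L} : Set A) := by
    rw [h0, (genericPoint_spec A).def]
    trivial
  rw [(isClosed_zeroPt L).closure_eq] at h1
  exact h1

/-- **the degenerate case of `ParaStatement`** -/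
theorem paraStatement_of_degenerate (L : RelativeGroupLaw K f)
    (hA : AbelianSchemePropertyBundle K f)
    (h0 : haveI := Weil.isIntegral_of_bundle hA; zeroPt L = genericPoint A) :
    ParaStatement L hA := by
  haveI := Weil.isIntegral_of_bundle hA
  haveI := Weil.isNoetherian_of_bundle hA
  haveI := Prod.isIntegral_A3' f hA
  have hs : ∀ x : A, x ∉ (Dc L (ufd_stalk hA)).supp := fun x => by
    rw [eq_zeroPt_of_degenerate L h0 x]
    exact zeroPt_not_mem_supp_Dc L (ufd_stalk hA)
  have hu : ∀ (σ : A3 f ⟶ A) (y : ↥(A3 f)),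
      y ∉ ((Dc L (ufd_stalk hA)).pullback σ).supp :=
    fun σ y => LocFam.not_mem_supp_pullback σ (hs _)
  refine ⟨1, (isDivOf_one (1 : LocFam (A3 f))).congr (fun y => ?_) (fun y => ?_)⟩
  · have h : y ∉ ((Dc L (ufd_stalk hA)).pullback (sig13 L) *
        (Dc L (ufd_stalk hA)).pullback (sig23 L) * (Dc L (ufd_stalk hA)).pullback (sigM L)).supp :=
      LocFam.not_mem_supp_mul (LocFam.not_mem_supp_mul (hu _ y) (hu _ y)) (hu _ y)
    rw [LocFam.not_mem_supp_iff] at h
    exact (associated_one_iff_isUnit.mpr h).symm
  · have h : y ∉ ((Dc L (ufd_stalk hA)).pullback (pr3 : A3 f ⟶ A) ^ 3 *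
        (Dc L (ufd_stalk hA)).pullback (pr1 : A3 f ⟶ A) *
        (Dc L (ufd_stalk hA)).pullback (pr2 : A3 f ⟶ A) *
        (Dc L (ufd_stalk hA)).pullback (m12 L)).supp :=
      LocFam.not_mem_supp_mul (LocFam.not_mem_supp_mul (LocFam.not_mem_supp_mul
        (LocFam.not_mem_supp_pow (hu _ y) 3) (hu _ y)) (hu _ y)) (hu _ y)
    rw [LocFam.not_mem_supp_iff] at h
    exact (associated_one_iff_isUnit.mpr h).symm

end Fermat.Agent.S26lib.Hub
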