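/-
S26lib / Hub / ParaFinal  (helper7)  --  Project K (S26), final glue

`ParaStatement` (the input of `Hub.card_torsion_of_para`) from a rational function `H` on `A³`
whose WEIL divisor is `σ13^*D + σ23^*D + σ_-^*D - 3 p3^*D - p12^*(x^*D + z^*D + (x+z)^*D)`, the
pull-backs being the abstract `MapModel.pullDiv` of helper2 along helper6's good maps -- i.e. the
output `∀ W, ord W H = paraDiv D W` of helper2's `ParaData.exists_H_of_square`.
-/
import Fermat.Agent.S26lib.Hub.Final
import Fermat.Agent.S26lib.Hub.ParaGlue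
import Fermat.Agent.S26lib.Prod.ParaMaps

set_option autoImplicit false
set_option linter.unusedSectionVars false
set_option linter.style.haveILetI false

noncomputable section

namespace Fermat.Agent.S26lib.Hub

open CategoryTheory CategoryTheory.Limits AlgebraicGeometry NeronModelInfra GoodReductionJacobian
open Fermat.Agent.S26lib Fermat.Agent.S26lib.Quad Fermat.Agent.S26lib.Prod
  Fermat.Agent.S26lib.Weil

universe u

variable {K : Type u} [Field K] [IsAlgClosed K] {A : Scheme.{u}}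
  {f : A ⟶ Spec (CommRingCat.of K)}

section Gen

variable [IsIntegral A] [IsNoetherian A]
  (L : RelativeGroupLaw K f) (hUFD : ∀ x : A, UniqueFactorizationMonoid (A.presheaf.stalk x))
  {X : Scheme.{u}} [IsIntegral X]

/-- the pulled-back local equations of `Dc` along a dominant morphism are non-zero -/
theorem Dc_pullback_ne_zero (σ : X ⟶ A) [IsDominant σ] (x : X) :
    ((Dc L hUFD).pullback σ).t x ≠ 0 := by
  apply LocFam.pullback_t_ne_zero (Dc_isCoherent L hUFD) σ
  rw [FinMap.map_genericPoint σ]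
  exact not_mem_supp_Dc_of_specializes L hUFD (generic_specializes A _)

end Gen

/-- **`ParaStatement` from the Weil divisor of `H`** (Cartier pull-backs) -/
theorem paraStatement_of_weil (L : RelativeGroupLaw K f) (hc : L.IsCommutative)
    (hA : AbelianSchemePropertyBundle K f) :
    haveI := Weil.isIntegral_of_bundle hA
    haveI := Weil.isNoetherian_of_bundle hA
    haveI := Prod.isIntegral_A3' f hA
    haveI := Prod.isNoetherian_A3 f hA
    ∀ (H : (A3 f).functionField), H ≠ 0 →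
    (∀ W : PrimeDiv (A3 f), ordAt W H =
      ((Dc L (ufd_stalk hA)).pullback (sig13 L)).weil W +
      ((Dc L (ufd_stalk hA)).pullback (sig23 L)).weil W +
      ((Dc L (ufd_stalk hA)).pullback (sigM L)).weil W -
      3 * ((Dc L (ufd_stalk hA)).pullback (pr3 : A3 f ⟶ A)).weil W -
      ((Dc L (ufd_stalk hA)).pullback (pr1 : A3 f ⟶ A)).weil W -
      ((Dc L (ufd_stalk hA)).pullback (pr2 : A3 f ⟶ A)).weil W -
      ((Dc L (ufd_stalk hA)).pullback (m12 L)).weil W) →
    ParaStatement L hA := by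
  haveI := Weil.isIntegral_of_bundle hA
  haveI := Weil.isNoetherian_of_bundle hA
  haveI := Prod.isIntegral_A2' f hA
  haveI := Prod.isNoetherian_A2 f hA
  haveI := Prod.isIntegral_A3' f hA
  haveI := Prod.isNoetherian_A3 f hA
  haveI := hA.smooth
  intro H hH h
  have hufd2 : ∀ p : ↥(A2 f), UniqueFactorizationMonoid ((A2 f).presheaf.stalk p) :=
    fun p => UFD.ufm_stalk_of_smooth (f2 f) p
  have hufd3 : ∀ p : ↥(A3 f), UniqueFactorizationMonoid ((A3 f).presheaf.stalk p) :=
    fun p => UFD.ufm_stalk_of_smooth (f3 f) p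
  have hnorm : ∀ p : ↥(A3 f), IsIntegrallyClosed ((A3 f).presheaf.stalk p) :=
    fun p => UFD.isIntegrallyClosed_stalk_of_smooth (f3 f) p
  -- the seven maps are dominant
  haveI d13 : IsDominant (sig13 L) := (goodMap_sig13 L hc hufd3).isDominant
  haveI d23 : IsDominant (sig23 L) := (goodMap_sig23 L hc hufd3).isDominant
  haveI dM : IsDominant (sigM L) := (goodMap_sigM L hufd3).isDominant
  haveI d3 : IsDominant (pr3 : A3 f ⟶ A) := (goodMap_pr3 hufd3).isDominant
  haveI d1 : IsDominant (pr1 : A3 f ⟶ A) := by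
    rw [pr1_eq]
    exact ((goodMap_p12 hufd3).comp (goodMap_fstA hufd2)).isDominant
  haveI d2 : IsDominant (pr2 : A3 f ⟶ A) := by
    rw [pr2_eq]
    exact ((goodMap_p12 hufd3).comp (goodMap_sndA hufd2)).isDominant
  haveI d12 : IsDominant (m12 L) := by
    rw [m12_eq]
    exact ((goodMap_p12 hufd3).comp (goodMap_addHom L hc hufd2)).isDominant
  have hcoh := Dc_isCoherent L (ufd_stalk hA)
  exact ⟨H, isDivOf_of_weil_seven hnorm hH (hcoh.pullback _) (hcoh.pullback _) (hcoh.pullback _)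
    (hcoh.pullback _) (hcoh.pullback _) (hcoh.pullback _) (hcoh.pullback _)
    (Dc_pullback_ne_zero L _ _) (Dc_pullback_ne_zero L _ _) (Dc_pullback_ne_zero L _ _)
    (Dc_pullback_ne_zero L _ _) (Dc_pullback_ne_zero L _ _) (Dc_pullback_ne_zero L _ _)
    (Dc_pullback_ne_zero L _ _) h⟩


/-- additivity of the abstract pull-back of divisors -/
theorem pullDiv_add3 {K FX FY : Type u} [Field K] [Field FX] [Field FY] [Algebra K FX]
    [Algebra K FY] {PX PY : Type u} {X : Para.VarModel K FX PX} {Y : Para.VarModel K FY PY}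
    {φ : FY →ₐ[K] FX} {pt : PX → PY} (m : Para.MapModel X Y φ pt) (a b c : Y.M.ι → ℤ)
    (W : X.M.ι) :
    m.pullDiv (fun Z => a Z + b Z + c Z) W = m.pullDiv a W + m.pullDiv b W + m.pullDiv c W := by
  by_cases hW : W ∈ Set.range m.pull
  · obtain ⟨Z, rfl⟩ := hW
    rw [m.pullDiv_pull, m.pullDiv_pull, m.pullDiv_pull, m.pullDiv_pull]
  · rw [m.pullDiv_of_not_mem _ hW, m.pullDiv_of_not_mem _ hW, m.pullDiv_of_not_mem _ hW,
      m.pullDiv_of_not_mem _ hW]
    simp

/-- **`ParaStatement` from the Weil divisor of `H` in helper2's abstract form**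
(`ord W H = paraDiv D W` for the models `MapModel.ofGoodMap` of helper6's eleven maps) -/
theorem paraStatement_of_pullDiv (L : RelativeGroupLaw K f) (hc : L.IsCommutative)
    (hA : AbelianSchemePropertyBundle K f) :
    haveI := Weil.isIntegral_of_bundle hA
    haveI := Weil.isNoetherian_of_bundle hA
    haveI := Prod.isIntegral_A2' f hA
    haveI := Prod.isNoetherian_A2 f hA
    haveI := Prod.isIntegral_A3' f hA
    haveI := Prod.isNoetherian_A3 f hA
    haveI := hA.smooth
    letI := kAlgebraFF f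
    letI := kAlgebraFF (f2 f)
    letI := kAlgebraFF (f3 f)
    ∀ (hU1 : ∀ x : A, UniqueFactorizationMonoid (A.presheaf.stalk x))
      (hU2 : ∀ p : ↥(A2 f), UniqueFactorizationMonoid ((A2 f).presheaf.stalk p))
      (hU3 : ∀ p : ↥(A3 f), UniqueFactorizationMonoid ((A3 f).presheaf.stalk p))
      (g13 : GoodMap (sig13 L)) (g23 : GoodMap (sig23 L)) (gM : GoodMap (sigM L))
      (g3 : GoodMap (pr3 : A3 f ⟶ A)) (g12 : GoodMap (p12 f))
      (gq1 : GoodMap (pullback.fst f f)) (gq2 : GoodMap (pullback.snd f f))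
      (gqs : GoodMap (addHom L))
      (H : (A3 f).functionField), H ≠ 0 →
      (∀ W : PrimeDiv (A3 f), ordAt W H =
        (MapModel.ofGoodMap hU3 hU1 (sig13 L) (sig13_comp L) g13).pullDiv
          (fun Z => (Weil.D L Z : ℤ)) W +
        (MapModel.ofGoodMap hU3 hU1 (sig23 L) (sig23_comp L) g23).pullDiv
          (fun Z => (Weil.D L Z : ℤ)) W +
        (MapModel.ofGoodMap hU3 hU1 (sigM L) (sigM_comp L) gM).pullDiv
          (fun Z => (Weil.D L Z : ℤ)) W -
        3 * (MapModel.ofGoodMap hU3 hU1 (pr3 : A3 f ⟶ A) pr3_comp g3).pullDiv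
          (fun Z => (Weil.D L Z : ℤ)) W -
        (MapModel.ofGoodMap hU3 hU2 (p12 f) (p12_f2 f) g12).pullDiv (fun Z =>
          (MapModel.ofGoodMap hU2 hU1 (pullback.fst f f) fst_comp gq1).pullDiv
            (fun Z => (Weil.D L Z : ℤ)) Z +
          (MapModel.ofGoodMap hU2 hU1 (pullback.snd f f) snd_comp gq2).pullDiv
            (fun Z => (Weil.D L Z : ℤ)) Z +
          (MapModel.ofGoodMap hU2 hU1 (addHom L) (addHom_comp L) gqs).pullDiv
            (fun Z => (Weil.D L Z : ℤ)) Z) W) →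
      ParaStatement L hA := by
  haveI := Weil.isIntegral_of_bundle hA
  haveI := Weil.isNoetherian_of_bundle hA
  haveI := Prod.isIntegral_A2' f hA
  haveI := Prod.isNoetherian_A2 f hA
  haveI := Prod.isIntegral_A3' f hA
  haveI := Prod.isNoetherian_A3 f hA
  haveI := hA.smooth
  letI := kAlgebraFF f
  letI := kAlgebraFF (f2 f)
  letI := kAlgebraFF (f3 f)
  intro hU1 hU2 hU3 g13 g23 gM g3 g12 gq1 gq2 gqs H hH h
  apply paraStatement_of_weil L hc hA H hH
  intro W
  have hD : (fun Z : (VarSch.ofScheme f hU1).M.ι => (Dc L (ufd_stalk hA)).weil Z) =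
      fun Z => (Weil.D L Z : ℤ) := funext fun Z => weil_Dc L (ufd_stalk hA) Z
  have hne := Dc_ne_zero L (ufd_stalk hA)
  haveI := gq1.isDominant
  haveI := gq2.isDominant
  haveI := gqs.isDominant
  -- the four horizontal terms
  have e13 := weil_pullback_eq_pullDiv hU3 hU1 (sig13 L) (sig13_comp L) g13 _ hne W
  have e23 := weil_pullback_eq_pullDiv hU3 hU1 (sig23 L) (sig23_comp L) g23 _ hne W
  have eM := weil_pullback_eq_pullDiv hU3 hU1 (sigM L) (sigM_comp L) gM _ hne W
  have e3 := weil_pullback_eq_pullDiv hU3 hU1 (pr3 : A3 f ⟶ A) pr3_comp g3 _ hne W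
  -- the three vertical terms
  have v1 : ((Dc L (ufd_stalk hA)).pullback (pr1 : A3 f ⟶ A)).weil W =
      (MapModel.ofGoodMap hU3 hU2 (p12 f) (p12_f2 f) g12).pullDiv (fun Z =>
        (MapModel.ofGoodMap hU2 hU1 (pullback.fst f f) fst_comp gq1).pullDiv
          (fun Z => (Weil.D L Z : ℤ)) Z) W := by
    rw [pr1_eq, LocFam.pullback_comp,
      weil_pullback_eq_pullDiv hU3 hU2 (p12 f) (p12_f2 f) g12 _
        (Dc_pullback_ne_zero L (ufd_stalk hA) (pullback.fst f f)) W]
    congr 1
    funext Z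
    rw [weil_pullback_eq_pullDiv hU2 hU1 (pullback.fst f f) fst_comp gq1 _ hne Z]
    exact congrArg (fun D =>
      (MapModel.ofGoodMap hU2 hU1 (pullback.fst f f) fst_comp gq1).pullDiv D Z) hD
  have v2 : ((Dc L (ufd_stalk hA)).pullback (pr2 : A3 f ⟶ A)).weil W =
      (MapModel.ofGoodMap hU3 hU2 (p12 f) (p12_f2 f) g12).pullDiv (fun Z =>
        (MapModel.ofGoodMap hU2 hU1 (pullback.snd f f) snd_comp gq2).pullDiv
          (fun Z => (Weil.D L Z : ℤ)) Z) W := by
    rw [pr2_eq, LocFam.pullback_comp,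
      weil_pullback_eq_pullDiv hU3 hU2 (p12 f) (p12_f2 f) g12 _
        (Dc_pullback_ne_zero L (ufd_stalk hA) (pullback.snd f f)) W]
    congr 1
    funext Z
    rw [weil_pullback_eq_pullDiv hU2 hU1 (pullback.snd f f) snd_comp gq2 _ hne Z]
    exact congrArg (fun D =>
      (MapModel.ofGoodMap hU2 hU1 (pullback.snd f f) snd_comp gq2).pullDiv D Z) hD
  have v3 : ((Dc L (ufd_stalk hA)).pullback (m12 L)).weil W =
      (MapModel.ofGoodMap hU3 hU2 (p12 f) (p12_f2 f) g12).pullDiv (fun Z =>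
        (MapModel.ofGoodMap hU2 hU1 (addHom L) (addHom_comp L) gqs).pullDiv
          (fun Z => (Weil.D L Z : ℤ)) Z) W := by
    rw [m12_eq, LocFam.pullback_comp,
      weil_pullback_eq_pullDiv hU3 hU2 (p12 f) (p12_f2 f) g12 _
        (Dc_pullback_ne_zero L (ufd_stalk hA) (addHom L)) W]
    congr 1
    funext Z
    rw [weil_pullback_eq_pullDiv hU2 hU1 (addHom L) (addHom_comp L) gqs _ hne Z]
    exact congrArg (fun D =>
      (MapModel.ofGoodMap hU2 hU1 (addHom L) (addHom_comp L) gqs).pullDiv D Z) hD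
  have e13' : ((Dc L (ufd_stalk hA)).pullback (sig13 L)).weil W =
      (MapModel.ofGoodMap hU3 hU1 (sig13 L) (sig13_comp L) g13).pullDiv
        (fun Z => (Weil.D L Z : ℤ)) W := e13.trans (congrArg (fun D =>
    (MapModel.ofGoodMap hU3 hU1 (sig13 L) (sig13_comp L) g13).pullDiv D W) hD)
  have e23' : ((Dc L (ufd_stalk hA)).pullback (sig23 L)).weil W =
      (MapModel.ofGoodMap hU3 hU1 (sig23 L) (sig23_comp L) g23).pullDiv
        (fun Z => (Weil.D L Z : ℤ)) W := e23.trans (congrArg (fun D =>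
    (MapModel.ofGoodMap hU3 hU1 (sig23 L) (sig23_comp L) g23).pullDiv D W) hD)
  have eM' : ((Dc L (ufd_stalk hA)).pullback (sigM L)).weil W =
      (MapModel.ofGoodMap hU3 hU1 (sigM L) (sigM_comp L) gM).pullDiv
        (fun Z => (Weil.D L Z : ℤ)) W := eM.trans (congrArg (fun D =>
    (MapModel.ofGoodMap hU3 hU1 (sigM L) (sigM_comp L) gM).pullDiv D W) hD)
  have e3' : ((Dc L (ufd_stalk hA)).pullback (pr3 : A3 f ⟶ A)).weil W =
      (MapModel.ofGoodMap hU3 hU1 (pr3 : A3 f ⟶ A) pr3_comp g3).pullDiv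
        (fun Z => (Weil.D L Z : ℤ)) W := e3.trans (congrArg (fun D =>
    (MapModel.ofGoodMap hU3 hU1 (pr3 : A3 f ⟶ A) pr3_comp g3).pullDiv D W) hD)
  rw [h W, pullDiv_add3, e13', e23', eM', e3', v1, v2, v3]
  ring

end Fermat.Agent.S26lib.Hub
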