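/-
S26lib / Hub / ParaGlue  (helper7)  --  Project K (S26), final glue (Weil ⟷ Cartier along good maps)

* `weil_pullback_pull`, `weil_pullback_of_not_mem` : the Weil divisor of the pull-back of a family of
  local equations along a good map (helper6's `GoodMap`);
* `weil_pullback_eq_pullDiv` : `(D.pullback σ).weil = (MapModel.ofGoodMap σ).pullDiv D.weil`, the
  comparison between helper1's Cartier pull-back and helper2's abstract pull-back of divisors.
-/
import Fermat.Agent.S26lib.Prod.MapModel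
import Fermat.Agent.S26lib.Quad.WeilCartier
import Fermat.Agent.S26lib.Para.Data

set_option autoImplicit false
set_option linter.unusedSectionVars false
set_option linter.style.haveILetI false

noncomputable section

namespace Fermat.Agent.S26lib.Hub

open AlgebraicGeometry CategoryTheory TopologicalSpace Fermat.Agent.S26lib.Quad
  Fermat.Agent.S26lib.Weil Fermat.Agent.S26lib.Prod Fermat.Agent.S26lib.VarSch

universe u

section Glue

variable {X Y : Scheme.{u}} [IsIntegral X] [IsIntegral Y] [IsLocallyNoetherian X]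
  [IsLocallyNoetherian Y]

/-- the Weil divisor of a pulled-back family, in terms of the comorphism -/
theorem weil_pullback_eq_ordAt (σ : X ⟶ Y) [IsDominant σ] (D : LocFam Y) (W : PrimeDiv X) :
    (D.pullback σ).weil W = ordAt W (FinMap.ffMap σ (toFF Y (σ W.1) (D.t (σ W.1)))) := by
  unfold LocFam.weil
  rw [LocFam.pullback_t, FinMap.toFF_stalkMap_ffMap]

theorem ordAt_toFF_eq_weil (D : LocFam Y) (Z : PrimeDiv Y) {y : Y} (hy : y = Z.1) :
    ordAt Z (toFF Y y (D.t y)) = D.weil Z := by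
  subst hy
  rfl

/-- along the pull-back of a prime divisor -/
theorem weil_pullback_pull {σ : X ⟶ Y} (h : GoodMap σ) (D : LocFam Y) (Z : PrimeDiv Y) :
    (D.pullback σ).weil (h.pull Z) = D.weil Z := by
  haveI := h.isDominant
  rw [weil_pullback_eq_ordAt, h.ordAt_pull]
  exact ordAt_toFF_eq_weil D Z (h.map_pull Z)

/-- along a prime divisor which dominates the target -/
theorem weil_pullback_of_dominant {σ : X ⟶ Y} (h : GoodMap σ) (D : LocFam Y)
    (hD0 : ∀ y, D.t y ≠ 0) (W : PrimeDiv X) (hW : σ W.1 = genericPoint Y) :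
    (D.pullback σ).weil W = 0 := by
  haveI := h.isDominant
  rw [weil_pullback_eq_ordAt]
  exact h.ordAt_eq_zero_of_dominant W hW (toFF_ne_zero Y (hD0 _))

end Glue

section Model

variable {K : Type u} [Field K] [IsAlgClosed K] {X Y : Scheme.{u}} [IsIntegral X] [IsIntegral Y]
  [IsNoetherian X] [IsNoetherian Y]
  {fX : X ⟶ Spec (CommRingCat.of K)} {fY : Y ⟶ Spec (CommRingCat.of K)}
  [LocallyOfFiniteType fX] [LocallyOfFiniteType fY]
  (hUX : ∀ x : X, UniqueFactorizationMonoid (X.presheaf.stalk x))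
  (hUY : ∀ y : Y, UniqueFactorizationMonoid (Y.presheaf.stalk y))

/-- **Cartier pull-back = abstract pull-back of divisors** along a good map -/
theorem weil_pullback_eq_pullDiv (σ : X ⟶ Y) (hσ : σ ≫ fY = fX) (h : GoodMap σ) (D : LocFam Y)
    (hD0 : ∀ y, D.t y ≠ 0) (W : PrimeDiv X) :
    letI := kAlgebraFF fX
    letI := kAlgebraFF fY
    haveI := h.isDominant
    (D.pullback σ).weil W =
      (MapModel.ofGoodMap hUX hUY σ hσ h).pullDiv (fun Z => D.weil Z) W := by
  letI := kAlgebraFF fX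
  letI := kAlgebraFF fY
  haveI := h.isDominant
  by_cases hW : W ∈ Set.range (MapModel.ofGoodMap hUX hUY σ hσ h).pull
  · obtain ⟨Z, rfl⟩ := hW
    rw [Para.MapModel.pullDiv_pull]
    exact weil_pullback_pull h D Z
  · rw [Para.MapModel.pullDiv_of_not_mem _ _ hW]
    apply weil_pullback_of_dominant h D hD0 W
    by_contra hne
    exact hW (h.exists_pull_eq (isIntegrallyClosed_of_ufm hUY) W hne)

end Model

section Model'

variable {K : Type u} [Field K] [IsAlgClosed K] {X Y : Scheme.{u}} [IsIntegral X] [IsIntegral Y]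
  [IsNoetherian X] [IsNoetherian Y]
  {fX : X ⟶ Spec (CommRingCat.of K)} {fY : Y ⟶ Spec (CommRingCat.of K)}
  [LocallyOfFiniteType fX] [LocallyOfFiniteType fY]
  (hUX : ∀ x : X, UniqueFactorizationMonoid (X.presheaf.stalk x))
  (hUY : ∀ y : Y, UniqueFactorizationMonoid (Y.presheaf.stalk y))

include hUX in
/-- every prime divisor passes through a rational point -/
theorem exists_kPt_specializes (W : PrimeDiv X) : ∃ q : KPt fX, W.1 ⤳ q.pt := by
  letI := kAlgebraFF fX
  by_contra hne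
  push Not at hne
  have h0 : (ofScheme fX hUX).thr W = ∅ := by
    ext q
    simp only [Set.mem_empty_iff_false, iff_false]
    exact hne q
  have := (ofScheme fX hUX).not_thinIn_thr W
  rw [h0] at this
  exact this ((ofScheme fX hUX).thinIn_empty W)

/-- **Cartier pull-back = abstract pull-back of divisors**, for ANY `MapModel` of a dominant
`K`-morphism `σ` (comorphism `ffMap σ`, points `KPt.push σ`) -/
theorem weil_pullback_eq_pullDiv_of_mapModel (σ : X ⟶ Y) [IsDominant σ] (hσ : σ ≫ fY = fX) :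
    letI := kAlgebraFF fX
    letI := kAlgebraFF fY
    ∀ (φ : Y.functionField →ₐ[K] X.functionField) (_ : ∀ y, φ y = FinMap.ffMap σ y)
      (m : Para.MapModel (ofScheme fX hUX) (ofScheme fY hUY) φ (KPt.push σ hσ))
      (D : LocFam Y) (_ : D.IsCoherent) (_ : ∀ y, D.t y ≠ 0) (W : PrimeDiv X),
      (D.pullback σ).weil W = m.pullDiv (fun Z => D.weil Z) W := by
  letI := kAlgebraFF fX
  letI := kAlgebraFF fY
  intro φ hφ m D hD hD0 W
  obtain ⟨q, hq⟩ := exists_kPt_specializes (fX := fX) hUX W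
  have h1 := m.ord_map_localEq (D := fun Z => D.weil Z) (q := q)
    (t := toFF Y (σ q.pt) (D.t (σ q.pt))) (toFF_ne_zero Y (hD0 _))
    (fun Z hZ => hD.ordAt_toFF_spec Z hZ) W hq
  rw [← h1, hφ, ← FinMap.toFF_stalkMap_ffMap]
  exact ((hD.pullback σ).ordAt_toFF_spec W hq).symm

end Model'

end Fermat.Agent.S26lib.Hub

/-! ### from Weil divisors to the Cartier statement -/

namespace Fermat.Agent.S26lib.Hub

open AlgebraicGeometry CategoryTheory TopologicalSpace Fermat.Agent.S26lib.Quad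
  Fermat.Agent.S26lib.Weil Fermat.Agent.S26lib.Prod Fermat.Agent.S26lib.VarSch

universe u

section Seven

variable {X : Scheme.{u}} [IsIntegral X] [IsLocallyNoetherian X]

/-- **Weil ⟹ Cartier for a divisor of the shape `P₁ + P₂ + P₃ - 3 N₀ - N₁ - N₂ - N₃`** -/
theorem isDivOf_of_weil_seven (hnorm : ∀ x : X, IsIntegrallyClosed (X.presheaf.stalk x))
    {H : X.functionField} (hH : H ≠ 0) {P₁ P₂ P₃ N₀ N₁ N₂ N₃ : LocFam X}
    (c1 : P₁.IsCoherent) (c2 : P₂.IsCoherent) (c3 : P₃.IsCoherent) (d0 : N₀.IsCoherent)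
    (d1 : N₁.IsCoherent) (d2 : N₂.IsCoherent) (d3 : N₃.IsCoherent)
    (e1 : ∀ x, P₁.t x ≠ 0) (e2 : ∀ x, P₂.t x ≠ 0) (e3 : ∀ x, P₃.t x ≠ 0)
    (f0 : ∀ x, N₀.t x ≠ 0) (f1 : ∀ x, N₁.t x ≠ 0) (f2 : ∀ x, N₂.t x ≠ 0) (f3 : ∀ x, N₃.t x ≠ 0)
    (h : ∀ Z : PrimeDiv X, ordAt Z H =
      P₁.weil Z + P₂.weil Z + P₃.weil Z - 3 * N₀.weil Z - N₁.weil Z - N₂.weil Z - N₃.weil Z) :
    IsDivOf H (P₁ * P₂ * P₃) (N₀ ^ 3 * N₁ * N₂ * N₃) := by
  have hf03 : ∀ x, (N₀ ^ 3).t x ≠ 0 := fun x => by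
    rw [LocFam.pow_t]; exact pow_ne_zero _ (f0 x)
  have e12 : ∀ x, (P₁ * P₂).t x ≠ 0 := fun x => by
    rw [LocFam.mul_t]; exact mul_ne_zero (e1 x) (e2 x)
  have e123 : ∀ x, (P₁ * P₂ * P₃).t x ≠ 0 := fun x => by
    rw [LocFam.mul_t]; exact mul_ne_zero (e12 x) (e3 x)
  have g1 : ∀ x, (N₀ ^ 3 * N₁).t x ≠ 0 := fun x => by
    rw [LocFam.mul_t]; exact mul_ne_zero (hf03 x) (f1 x)
  have g2 : ∀ x, (N₀ ^ 3 * N₁ * N₂).t x ≠ 0 := fun x => by
    rw [LocFam.mul_t]; exact mul_ne_zero (g1 x) (f2 x)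
  have g3 : ∀ x, (N₀ ^ 3 * N₁ * N₂ * N₃).t x ≠ 0 := fun x => by
    rw [LocFam.mul_t]; exact mul_ne_zero (g2 x) (f3 x)
  refine isDivOf_of_weil hnorm hH ((c1.mul c2).mul c3) ((((d0.pow 3).mul d1).mul d2).mul d3)
    e123 g3 fun Z => ?_
  rw [h Z, LocFam.weil_mul Z (e12 _) (e3 _), LocFam.weil_mul Z (e1 _) (e2 _),
    LocFam.weil_mul Z (g2 _) (f3 _), LocFam.weil_mul Z (g1 _) (f2 _),
    LocFam.weil_mul Z (hf03 _) (f1 _), LocFam.weil_pow Z (f0 _) 3]
  push_cast
  ring

end Seven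

end Fermat.Agent.S26lib.Hub
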