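/-
S26lib / Hub / ParaInputs  (helper7)  --  Project K (S26), final glue

`ParaStatement` from the output of helper2's assembly (`Para/OfScheme.lean`): a function `H` on `A³`
with `ord W H = paraDiv D W`, the abstract pull-backs being those of an ARBITRARY
`I : Para.MapInputs L` (no assumption on how the eleven `MapModel`s were produced).
-/
import Fermat.Agent.S26lib.Hub.ParaFinal
import Fermat.Agent.S26lib.Para.OfScheme

set_option autoImplicit false
set_option linter.unusedSectionVars false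
set_option linter.style.haveILetI false

noncomputable section

namespace Fermat.Agent.S26lib.Hub

open CategoryTheory CategoryTheory.Limits AlgebraicGeometry NeronModelInfra GoodReductionJacobian
open Fermat.Agent.S26lib Fermat.Agent.S26lib.Quad Fermat.Agent.S26lib.Prod
  Fermat.Agent.S26lib.Weil

universe u

variable {K : Type u} [Field K] [IsAlgClosed K] {A : Scheme.{u}}
  {f : A ⟶ Spec (CommRingCat.of K)}

/-- **`ParaStatement` from the Weil divisor of `H` in the form delivered by helper2's assembly** -/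
theorem paraStatement_of_mapInputs (L : RelativeGroupLaw K f)
    (hA : AbelianSchemePropertyBundle K f) :
    haveI := Weil.isIntegral_of_bundle hA
    haveI := Weil.isNoetherian_of_bundle hA
    haveI := Prod.isIntegral_A2' f hA
    haveI := Prod.isNoetherian_A2 f hA
    haveI := Prod.isIntegral_A3' f hA
    haveI := Prod.isNoetherian_A3 f hA
    haveI := hA.smooth
    letI := kAlgebraFF f
    letI := kAlgebraFF (f2 f)
    letI := kAlgebraFF (f3 f)
    ∀ (I : Para.MapInputs L) (H : (A3 f).functionField), H ≠ 0 →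
      (∀ W : PrimeDiv (A3 f), ordAt W H =
        I.sig13m.pullDiv (fun Z => (Weil.D L Z : ℤ)) W +
        I.sig23m.pullDiv (fun Z => (Weil.D L Z : ℤ)) W +
        I.sigMm.pullDiv (fun Z => (Weil.D L Z : ℤ)) W -
        3 * I.pr3m.pullDiv (fun Z => (Weil.D L Z : ℤ)) W -
        I.p12m.pullDiv (fun Z =>
          I.fstm.pullDiv (fun Z => (Weil.D L Z : ℤ)) Z +
          I.sndm.pullDiv (fun Z => (Weil.D L Z : ℤ)) Z +
          I.addm.pullDiv (fun Z => (Weil.D L Z : ℤ)) Z) W) →
      ParaStatement L hA := by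
  haveI := Weil.isIntegral_of_bundle hA
  haveI := Weil.isNoetherian_of_bundle hA
  haveI := Prod.isIntegral_A2' f hA
  haveI := Prod.isNoetherian_A2 f hA
  haveI := Prod.isIntegral_A3' f hA
  haveI := Prod.isNoetherian_A3 f hA
  haveI := hA.smooth
  letI := kAlgebraFF f
  letI := kAlgebraFF (f2 f)
  letI := kAlgebraFF (f3 f)
  intro I H hH h
  haveI := Para.isDominant_p12 L
  have hU1 : ∀ x : A, UniqueFactorizationMonoid (A.presheaf.stalk x) :=
    fun x => UFD.ufm_stalk_of_smooth f x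
  have hU2 : ∀ p : ↥(A2 f), UniqueFactorizationMonoid ((A2 f).presheaf.stalk p) :=
    fun p => UFD.ufm_stalk_of_smooth (f2 f) p
  have hU3 : ∀ p : ↥(A3 f), UniqueFactorizationMonoid ((A3 f).presheaf.stalk p) :=
    fun p => UFD.ufm_stalk_of_smooth (f3 f) p
  have hnorm : ∀ p : ↥(A3 f), IsIntegrallyClosed ((A3 f).presheaf.stalk p) :=
    fun p => UFD.isIntegrallyClosed_stalk_of_smooth (f3 f) p
  have hcoh := Dc_isCoherent L (ufd_stalk hA)
  have hne := Dc_ne_zero L (ufd_stalk hA)
  have hD : (fun Z : PrimeDiv A => (Dc L (ufd_stalk hA)).weil Z) =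
      fun Z => (Weil.D L Z : ℤ) := funext fun Z => weil_Dc L (ufd_stalk hA) Z
  -- the seven maps are dominant
  haveI d1 : IsDominant (pr1 : A3 f ⟶ A) := by
    rw [pr1_eq]; infer_instance
  haveI d2 : IsDominant (pr2 : A3 f ⟶ A) := by
    rw [pr2_eq]; infer_instance
  haveI d12 : IsDominant (m12 L) := by
    rw [m12_eq]; infer_instance
  refine ⟨H, isDivOf_of_weil_seven hnorm hH (hcoh.pullback _) (hcoh.pullback _) (hcoh.pullback _)
    (hcoh.pullback _) (hcoh.pullback _) (hcoh.pullback _) (hcoh.pullback _)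
    (Dc_pullback_ne_zero L _ _) (Dc_pullback_ne_zero L _ _) (Dc_pullback_ne_zero L _ _)
    (Dc_pullback_ne_zero L _ _) (Dc_pullback_ne_zero L _ _) (Dc_pullback_ne_zero L _ _)
    (Dc_pullback_ne_zero L _ _) fun W => ?_⟩
  -- the four horizontal terms
  have e13 : ((Dc L (ufd_stalk hA)).pullback (sig13 L)).weil W =
      I.sig13m.pullDiv (fun Z => (Weil.D L Z : ℤ)) W :=
    (weil_pullback_eq_pullDiv_of_mapModel hU3 hU1 (sig13 L) (Para.sig13_f L)
      (VarSch.ffAlgHom (sig13 L) (Para.sig13_f L)) (fun _ => rfl)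
      I.sig13m (Dc L (ufd_stalk hA)) hcoh hne W).trans (congrArg (fun D => I.sig13m.pullDiv D W) hD)
  have e23 : ((Dc L (ufd_stalk hA)).pullback (sig23 L)).weil W =
      I.sig23m.pullDiv (fun Z => (Weil.D L Z : ℤ)) W :=
    (weil_pullback_eq_pullDiv_of_mapModel hU3 hU1 (sig23 L) (Para.sig23_f L)
      (VarSch.ffAlgHom (sig23 L) (Para.sig23_f L)) (fun _ => rfl)
      I.sig23m (Dc L (ufd_stalk hA)) hcoh hne W).trans (congrArg (fun D => I.sig23m.pullDiv D W) hD)
  have eM : ((Dc L (ufd_stalk hA)).pullback (sigM L)).weil W =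
      I.sigMm.pullDiv (fun Z => (Weil.D L Z : ℤ)) W :=
    (weil_pullback_eq_pullDiv_of_mapModel hU3 hU1 (sigM L) (Para.sigM_f L)
      (VarSch.ffAlgHom (sigM L) (Para.sigM_f L)) (fun _ => rfl)
      I.sigMm (Dc L (ufd_stalk hA)) hcoh hne W).trans (congrArg (fun D => I.sigMm.pullDiv D W) hD)
  have e3 : ((Dc L (ufd_stalk hA)).pullback (pr3 : A3 f ⟶ A)).weil W =
      I.pr3m.pullDiv (fun Z => (Weil.D L Z : ℤ)) W :=
    (weil_pullback_eq_pullDiv_of_mapModel hU3 hU1 (pr3 : A3 f ⟶ A) Para.pr3_f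
      (VarSch.ffAlgHom (pr3 : A3 f ⟶ A) Para.pr3_f) (fun _ => rfl)
      I.pr3m (Dc L (ufd_stalk hA)) hcoh hne W).trans (congrArg (fun D => I.pr3m.pullDiv D W) hD)
  -- the three vertical terms
  have v1 : ((Dc L (ufd_stalk hA)).pullback (pr1 : A3 f ⟶ A)).weil W =
      I.p12m.pullDiv (fun Z => I.fstm.pullDiv (fun Z => (Weil.D L Z : ℤ)) Z) W := by
    rw [pr1_eq, LocFam.pullback_comp,
      weil_pullback_eq_pullDiv_of_mapModel hU3 hU2 (p12 f) Para.p12_f2'
        (VarSch.ffAlgHom (p12 f) Para.p12_f2') (fun _ => rfl)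
        I.p12m ((Dc L (ufd_stalk hA)).pullback (pullback.fst f f)) (hcoh.pullback _)
        (Dc_pullback_ne_zero L (ufd_stalk hA) (pullback.fst f f)) W]
    congr 1
    funext Z
    exact (weil_pullback_eq_pullDiv_of_mapModel hU2 hU1 (pullback.fst f f) Para.fst_f
      (VarSch.ffAlgHom (pullback.fst f f) Para.fst_f) (fun _ => rfl) I.fstm (Dc L (ufd_stalk hA)) hcoh hne Z).trans
      (congrArg (fun D => I.fstm.pullDiv D Z) hD)
  have v2 : ((Dc L (ufd_stalk hA)).pullback (pr2 : A3 f ⟶ A)).weil W =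
      I.p12m.pullDiv (fun Z => I.sndm.pullDiv (fun Z => (Weil.D L Z : ℤ)) Z) W := by
    rw [pr2_eq, LocFam.pullback_comp,
      weil_pullback_eq_pullDiv_of_mapModel hU3 hU2 (p12 f) Para.p12_f2'
        (VarSch.ffAlgHom (p12 f) Para.p12_f2') (fun _ => rfl)
        I.p12m ((Dc L (ufd_stalk hA)).pullback (pullback.snd f f)) (hcoh.pullback _)
        (Dc_pullback_ne_zero L (ufd_stalk hA) (pullback.snd f f)) W]
    congr 1
    funext Z
    exact (weil_pullback_eq_pullDiv_of_mapModel hU2 hU1 (pullback.snd f f) Para.snd_f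
      (VarSch.ffAlgHom (pullback.snd f f) Para.snd_f) (fun _ => rfl) I.sndm (Dc L (ufd_stalk hA)) hcoh hne Z).trans
      (congrArg (fun D => I.sndm.pullDiv D Z) hD)
  have v3 : ((Dc L (ufd_stalk hA)).pullback (m12 L)).weil W =
      I.p12m.pullDiv (fun Z => I.addm.pullDiv (fun Z => (Weil.D L Z : ℤ)) Z) W := by
    rw [m12_eq, LocFam.pullback_comp,
      weil_pullback_eq_pullDiv_of_mapModel hU3 hU2 (p12 f) Para.p12_f2'
        (VarSch.ffAlgHom (p12 f) Para.p12_f2') (fun _ => rfl)
        I.p12m ((Dc L (ufd_stalk hA)).pullback (addHom L)) (hcoh.pullback _)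
        (Dc_pullback_ne_zero L (ufd_stalk hA) (addHom L)) W]
    congr 1
    funext Z
    exact (weil_pullback_eq_pullDiv_of_mapModel hU2 hU1 (addHom L) (addHom_comp L)
      (VarSch.ffAlgHom (addHom L) (addHom_comp L)) (fun _ => rfl) I.addm (Dc L (ufd_stalk hA)) hcoh hne Z).trans
      (congrArg (fun D => I.addm.pullDiv D Z) hD)
  rw [h W, pullDiv_add3, e13, e23, eM, e3, v1, v2, v3]
  ring

end Fermat.Agent.S26lib.Hub
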